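import Mathlib

/-!
# Chebotarev track, milestone 2 (cyclotomic crossing), node X2 (a): cyclotomic extensions of a
Galois extension are Galois over the base

`K → L → L'` a tower of fields of characteristic zero, `L / K` finite Galois and `L' = L(ζ_n)`.
Then `L' / K` is finite Galois.
-/

set_option autoImplicit false

open Polynomial

namespace Fermat.Agent.Cheb.Cross

variable (K L L' : Type*) [Field K] [Field L] [Field L'] [Algebra K L] [Algebra L L']
  [Algebra K L'] [IsScalarTower K L L']

/-- `L(ζ_n) / K` is finite-dimensional if `L / K` is. -/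
theorem finiteDimensional_of_isCyclotomicExtension (n : ℕ) [NeZero n] [FiniteDimensional K L]
    [IsCyclotomicExtension {n} L L'] : FiniteDimensional K L' :=
  haveI : FiniteDimensional L L' := IsCyclotomicExtension.finiteDimensional {n} L L'
  Module.Finite.trans L L'

/-- `L(ζ_n) / K` is normal if `L / K` is finite Galois. -/
theorem normal_of_isCyclotomicExtension (n : ℕ) [NeZero n] [FiniteDimensional K L] [IsGalois K L]
    [IsCyclotomicExtension {n} L L'] : Normal K L' := by
  obtain ⟨f, hfsep, hf⟩ := IsGalois.is_separable_splitting_field K L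
  have hf0 : f ≠ 0 := hfsep.ne_zero
  have hg0 : (X ^ n - 1 : K[X]) ≠ 0 := X_pow_sub_C_ne_zero (NeZero.pos n) 1
  have : IsSplittingField L L' ((X ^ n - 1 : K[X]).map (algebraMap K L)) := by
    have h := IsCyclotomicExtension.isSplittingField_X_pow_sub_one n L L'
    simpa using h
  have := IsSplittingField.mul (F := K) (K := L) (L := L') f (X ^ n - 1) hf0 hg0
  exact Normal.of_isSplittingField (f * (X ^ n - 1))

/-- `L(ζ_n) / K` is Galois if `L / K` is finite Galois (characteristic zero). -/
theorem isGalois_of_isCyclotomicExtension [CharZero K] (n : ℕ) [NeZero n] [FiniteDimensional K L]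
    [IsGalois K L] [IsCyclotomicExtension {n} L L'] : IsGalois K L' := by
  have := finiteDimensional_of_isCyclotomicExtension K L L' n
  have := normal_of_isCyclotomicExtension K L L' n
  exact ⟨⟩

end Fermat.Agent.Cheb.Cross
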