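import Mathlib

/-!
# Chebotarev track, milestone 2 (cyclotomic crossing), node X1: Frobenius elements in towers

Number fields as types.  `K ⊆ M ⊆ L'` and `K ⊆ L ⊆ L'`.

* `card_quotient_under_eq_of_prime` : if the residue field of `Q' ∩ 𝓞 M` has prime cardinality `q`
  then so has the residue field of `Q' ∩ 𝓞 K`;
* `isArithFrobAt_restrictScalars` : an arithmetic Frobenius at `Q'` over `𝓞 M` is an arithmetic
  Frobenius at `Q'` over `𝓞 K` if `Q' ∩ 𝓞 M` has prime residue cardinality;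
* `isArithFrobAt_under` : the restriction to `L` of an arithmetic Frobenius at `Q'` over `𝓞 K` is
  an arithmetic Frobenius at `Q' ∩ 𝓞 L`;
* `transfer` : the combination used in the crossing argument.
-/

set_option autoImplicit false

open NumberField

namespace Fermat.Agent.Cheb.Cross

section Card

variable {K M L' : Type*} [Field K] [Field M] [Field L'] [NumberField K] [NumberField M]
  [NumberField L'] [Algebra K M] [Algebra M L'] [Algebra K L'] [IsScalarTower K M L']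
  [IsGalois M L'] [IsGalois K L']

omit [NumberField K] [NumberField M] [NumberField L'] [IsGalois M L'] [IsGalois K L'] in
/-- If the residue field of `Q' ∩ 𝓞 M` has prime cardinality `q`, so has that of `Q' ∩ 𝓞 K`. -/
theorem card_quotient_under_eq_of_prime (Q' : Ideal (𝓞 L')) [Q'.IsPrime] {q : ℕ} (hq : q.Prime)
    (h : Nat.card (𝓞 M ⧸ Q'.under (𝓞 M)) = q) : Nat.card (𝓞 K ⧸ Q'.under (𝓞 K)) = q := by
  have hunder : (Q'.under (𝓞 M)).under (𝓞 K) = Q'.under (𝓞 K) := Ideal.under_under _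
  have hle : Q'.under (𝓞 K) ≤ (Q'.under (𝓞 M)).comap (algebraMap (𝓞 K) (𝓞 M)) := by
    rw [← Ideal.under_def, hunder]
  set f : (𝓞 K ⧸ Q'.under (𝓞 K)) →+* (𝓞 M ⧸ Q'.under (𝓞 M)) :=
    Ideal.quotientMap (Q'.under (𝓞 M)) (algebraMap (𝓞 K) (𝓞 M)) hle with hf
  have hinj : Function.Injective f := by
    apply Ideal.quotientMap_injective'
    rw [← Ideal.under_def, hunder]
  have hdvd : Nat.card (𝓞 K ⧸ Q'.under (𝓞 K)) ∣ Nat.card (𝓞 M ⧸ Q'.under (𝓞 M)) :=
    AddSubgroup.card_dvd_of_injective f.toAddMonoidHom hinj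
  rw [h] at hdvd
  rcases (Nat.dvd_prime hq).mp hdvd with h1 | h1
  · exfalso
    have hfin : Finite (𝓞 K ⧸ Q'.under (𝓞 K)) := Nat.finite_of_card_ne_zero (by omega)
    have hsub : Subsingleton (𝓞 K ⧸ Q'.under (𝓞 K)) := (Nat.card_eq_one_iff_unique.mp h1).1
    have htop : Q'.under (𝓞 K) = ⊤ := Ideal.Quotient.subsingleton_iff.mp hsub
    exact (inferInstance : (Q'.under (𝓞 K)).IsPrime).ne_top htop
  · exact h1

/-- An arithmetic Frobenius over `𝓞 M` at a prime `Q'` with `Q' ∩ 𝓞 M` of prime residue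
cardinality is an arithmetic Frobenius over `𝓞 K`. -/
theorem isArithFrobAt_restrictScalars (ρ : L' ≃ₐ[M] L') (Q' : Ideal (𝓞 L')) [Q'.IsPrime] {q : ℕ}
    (hq : q.Prime) (hcard : Nat.card (𝓞 M ⧸ Q'.under (𝓞 M)) = q)
    (h : IsArithFrobAt (𝓞 M) ρ Q') : IsArithFrobAt (𝓞 K) (ρ.restrictScalars K) Q' := by
  intro x
  have h1 := h x
  rw [hcard] at h1
  rw [card_quotient_under_eq_of_prime (K := K) (M := M) Q' hq hcard]
  exact h1

end Card

section Restrict

variable {K L L' : Type*} [Field K] [Field L] [Field L'] [NumberField K] [NumberField L]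
  [NumberField L'] [Algebra K L] [Algebra L L'] [Algebra K L'] [IsScalarTower K L L']
  [IsGalois K L] [IsGalois K L']

/-- The restriction to `L` of an arithmetic Frobenius at `Q'` over `𝓞 K` is an arithmetic Frobenius
at `Q' ∩ 𝓞 L`. -/
theorem isArithFrobAt_under (ρ : L' ≃ₐ[K] L') (g : L ≃ₐ[K] L)
    (hg : ∀ x : L, ρ (algebraMap L L' x) = algebraMap L L' (g x)) (Q' : Ideal (𝓞 L'))
    (h : IsArithFrobAt (𝓞 K) ρ Q') : IsArithFrobAt (𝓞 K) g (Q'.under (𝓞 L)) := by
  intro x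
  have hunder : (Q'.under (𝓞 L)).under (𝓞 K) = Q'.under (𝓞 K) := Ideal.under_under _
  rw [hunder, Ideal.under_def, Ideal.mem_comap, map_sub, map_pow]
  have h1 := h (algebraMap (𝓞 L) (𝓞 L') x)
  have e : algebraMap (𝓞 L) (𝓞 L') ((MulSemiringAction.toAlgHom (𝓞 K) (𝓞 L) g) x) =
      (MulSemiringAction.toAlgHom (𝓞 K) (𝓞 L') ρ) (algebraMap (𝓞 L) (𝓞 L') x) := by
    apply RingOfIntegers.ext
    change algebraMap L L' (g x) = ρ (algebraMap L L' x)
    exact (hg x).symm
  rw [e]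
  exact h1

end Restrict

section Transfer

variable {K M L L' : Type*} [Field K] [Field M] [Field L] [Field L'] [NumberField K]
  [NumberField M] [NumberField L] [NumberField L'] [Algebra K M] [Algebra M L'] [Algebra K L]
  [Algebra L L'] [Algebra K L'] [IsScalarTower K M L'] [IsScalarTower K L L']
  [IsGalois M L'] [IsGalois K L'] [IsGalois K L]

/-- **Tower transfer.** `K ⊆ M ⊆ L'`, `K ⊆ L ⊆ L'`; `ρ ∈ Gal(L'/M)` restricting to `g ∈ Gal(L/K)`.
If `ρ` is an arithmetic Frobenius over `𝓞 M` at a prime `Q'` of `L'` such that `Q' ∩ 𝓞 M` has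
residue field of prime cardinality `q`, then `Q' ∩ 𝓞 K` has residue field of cardinality `q` and
`g` is an arithmetic Frobenius over `𝓞 K` at `Q' ∩ 𝓞 L`. -/
theorem transfer (ρ : L' ≃ₐ[M] L') (g : L ≃ₐ[K] L)
    (hg : ∀ x : L, ρ (algebraMap L L' x) = algebraMap L L' (g x)) (Q' : Ideal (𝓞 L'))
    [Q'.IsPrime] {q : ℕ} (hq : q.Prime) (hcard : Nat.card (𝓞 M ⧸ Q'.under (𝓞 M)) = q)
    (h : IsArithFrobAt (𝓞 M) ρ Q') :
    Nat.card (𝓞 K ⧸ (Q'.under (𝓞 L)).under (𝓞 K)) = q ∧
      IsArithFrobAt (𝓞 K) g (Q'.under (𝓞 L)) := by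
  have hunder : (Q'.under (𝓞 L)).under (𝓞 K) = Q'.under (𝓞 K) := Ideal.under_under _
  refine ⟨?_, ?_⟩
  · rw [hunder]
    exact card_quotient_under_eq_of_prime (K := K) (M := M) Q' hq hcard
  · exact isArithFrobAt_under (ρ.restrictScalars K) g hg Q'
      (isArithFrobAt_restrictScalars (K := K) ρ Q' hq hcard h)

end Transfer

end Fermat.Agent.Cheb.Cross
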