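import Fermat.Agent.Cheb.Cross.Statements
import Fermat.Agent.Cheb.Cross.Tower
import Fermat.Agent.Cheb.Cross.CycloGalois

/-!
# Chebotarev track, milestone 2 (cyclotomic crossing), STEP 0: adjoining `i`

`cyclicExactFrob_of_TC : CyclicExactFrobTC → CyclicExactFrob`.

Given `L / K` Galois and `g ∈ Gal(L/K)`: put `L₂ := L(i)` (`CyclotomicField 4 L`), which is Galois
over `K` and totally complex; lift `g` to `g₂ ∈ Gal(L₂/K)`; let `M` be the fixed field of `⟨g₂⟩`,
so that `g₂` is a generator `ρ` of `Gal(L₂/M)`.  The totally complex case applied to `(M, L₂, ρ)`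
gives a prime `Q'` of `L₂` with `Q' ∩ 𝓞 M` of prime residue cardinality `q ∉ T` at which `ρ` is an
arithmetic Frobenius; by the tower transfer (`Cross.transfer`), `g` is an arithmetic Frobenius at
`Q' ∩ 𝓞 L` over `𝓞 K` and `Q' ∩ 𝓞 K` has residue cardinality `q`.

(The hypothesis `IsCyclic (L ≃ₐ[K] L)` of `CyclicExactFrob` is not needed.)
-/

set_option autoImplicit false
set_option linter.unusedSectionVars false
set_option linter.style.haveILetI false

open scoped NumberField

noncomputable section

namespace Fermat.Agent.Cheb.Cross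

section Generator

variable {K E : Type*} [Field K] [Field E] [Algebra K E] [FiniteDimensional K E]

/-- `σ`, regarded as an automorphism of `E` over the fixed field of `⟨σ⟩`. -/
def fixedGen (σ : E ≃ₐ[K] E) :
    E ≃ₐ[IntermediateField.fixedField (Subgroup.zpowers σ)] E :=
  IntermediateField.fixingSubgroupEquiv (IntermediateField.fixedField (Subgroup.zpowers σ))
    ⟨σ, by
      rw [IntermediateField.fixingSubgroup_fixedField]
      exact Subgroup.mem_zpowers σ⟩

theorem fixedGen_apply (σ : E ≃ₐ[K] E) (x : E) : fixedGen σ x = σ x := rfl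

/-- `σ` generates the Galois group of `E` over the fixed field of `⟨σ⟩`. -/
theorem fixedGen_pow_apply (σ : E ≃ₐ[K] E) (n : ℕ) (y : E) :
    (fixedGen σ ^ n) y = (σ ^ n) y := by
  induction n generalizing y with
  | zero => simp
  | succ n ih =>
    rw [pow_succ, pow_succ, AlgEquiv.mul_apply, AlgEquiv.mul_apply, ih, fixedGen_apply]

theorem fixedGen_zpow_apply (σ : E ≃ₐ[K] E) (k : ℤ) (y : E) :
    (fixedGen σ ^ k) y = (σ ^ k) y := by
  rcases Int.eq_nat_or_neg k with ⟨n, rfl | rfl⟩
  · rw [zpow_natCast, zpow_natCast, fixedGen_pow_apply]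
  · rw [zpow_neg, zpow_neg, zpow_natCast, zpow_natCast]
    apply (σ ^ n).injective
    rw [← fixedGen_pow_apply σ n, ← AlgEquiv.mul_apply, ← AlgEquiv.mul_apply, mul_inv_cancel,
      mul_inv_cancel]
    rfl

/-- `σ` generates the Galois group of `E` over the fixed field of `⟨σ⟩`. -/
theorem zpowers_fixedGen (σ : E ≃ₐ[K] E) : Subgroup.zpowers (fixedGen σ) = ⊤ := by
  rw [eq_top_iff]
  intro τ _
  have e : (IntermediateField.fixedField (Subgroup.zpowers σ)).fixingSubgroup =
      Subgroup.zpowers σ := IntermediateField.fixingSubgroup_fixedField _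
  have h1 : (τ.restrictScalars K : E ≃ₐ[K] E) ∈ Subgroup.zpowers σ := by
    have h : (τ.restrictScalars K : E ≃ₐ[K] E) ∈
        (IntermediateField.fixedField (Subgroup.zpowers σ)).fixingSubgroup := by
      rw [IntermediateField.mem_fixingSubgroup_iff]
      intro x hx
      exact τ.commutes ⟨x, hx⟩
    exact e.le h
  obtain ⟨k, hk⟩ := Subgroup.mem_zpowers_iff.mp h1
  refine Subgroup.mem_zpowers_iff.mpr ⟨k, ?_⟩
  apply AlgEquiv.ext
  intro x
  rw [fixedGen_zpow_apply, hk]
  rfl

end Generator

/-- **STEP 0 of the crossing argument**: the exact cyclic statement follows from its totally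
complex, generator-only form. -/
theorem cyclicExactFrob_of_TC (hTC : CyclicExactFrobTC) : Fermat.Agent.Cheb.CyclicExactFrob := by
  intro K L _ _ _ _ _ _ _ g T
  -- `L₂ = L(i)`
  let L₂ : Type := CyclotomicField 4 L
  haveI : IsScalarTower K L L₂ := inferInstance
  haveI : IsCyclotomicExtension {4} L L₂ := CyclotomicField.isCyclotomicExtension 4 L
  haveI : NumberField L₂ := IsCyclotomicExtension.numberField {4} L L₂
  haveI : FiniteDimensional K L₂ := finiteDimensional_of_isCyclotomicExtension K L L₂ 4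
  haveI : IsGalois K L₂ := isGalois_of_isCyclotomicExtension K L L₂ 4
  haveI : NumberField.IsTotallyComplex L₂ := by
    rw [← NumberField.nrRealPlaces_eq_zero_iff]
    exact NumberField.InfinitePlace.IsPrimitiveRoot.nrRealPlaces_eq_zero_of_two_lt (by norm_num)
      (IsCyclotomicExtension.zeta_spec 4 L L₂)
  -- lift `g`
  obtain ⟨g₂, hg₂⟩ := AlgEquiv.restrictNormalHom_surjective (F := K) (K₁ := L) L₂ g
  have hres : ∀ x : L, g₂ (algebraMap L L₂ x) = algebraMap L L₂ (g x) := by
    intro x
    rw [← hg₂]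
    exact (AlgEquiv.restrictNormal_commutes g₂ L x).symm
  -- the fixed field of `⟨g₂⟩`
  set M : IntermediateField K L₂ := IntermediateField.fixedField (Subgroup.zpowers g₂) with hM
  obtain ⟨Q', hQ'p, hqprime, hqT, hfrob⟩ :=
    hTC M L₂ (fixedGen g₂) (zpowers_fixedGen g₂) T
  haveI := hQ'p
  have hg : ∀ x : L, fixedGen g₂ (algebraMap L L₂ x) = algebraMap L L₂ (g x) := hres
  obtain ⟨hcard, hF⟩ := transfer (K := K) (M := M) (L := L) (L' := L₂) (fixedGen g₂) g hg Q'
    hqprime rfl hfrob
  refine ⟨Q'.under (𝓞 L), inferInstance, ?_, ?_, hF⟩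
  · rw [hcard]; exact hqprime
  · rw [hcard]; exact hqT

end Fermat.Agent.Cheb.Cross
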