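import Fermat.Agent.Cheb.Cross.CyclicExactTC
import Fermat.Agent.Cheb.Cross.AdjoinI

/-!
# Chebotarev's theorem over `ℚ`, EXACT form, unconditionally

* `cyclicExactFrob : CyclicExactFrob` : for a cyclic extension `L / K` of number fields every
  `g ∈ Gal(L/K)` is an arithmetic Frobenius at a prime of `L` over a degree-one prime of `K` of norm
  outside a given finite set (cyclotomic crossing `Cross.cyclicExactFrobTC` + adjunction of `i`);
* `chebExact : ChebExact` : every `σ ∈ G_ℚ` agrees on a given finite extension `L / ℚ` with a
  Frobenius element at a prime `q` outside a given finite set (Prelude language,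
  `ValuationSubring.IsFrobeniusAt`).

No Artin reciprocity is used: the only analytic input is the class density theorem
(`Cheb/ClassDensity.lean`) applied to the norm residue map of a totally complex field.
-/

set_option autoImplicit false

namespace Fermat.Agent.Cheb

/-- **Exact form, cyclic case**, unconditionally. -/
theorem cyclicExactFrob : CyclicExactFrob :=
  Cross.cyclicExactFrob_of_TC Cross.cyclicExactFrobTC

/-- **Chebotarev's theorem over `ℚ`, exact form**, unconditionally. -/
theorem chebExact : ChebExact :=
  chebExact_of_cyclicExactFrob cyclicExactFrob

end Fermat.Agent.Cheb
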