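import Mathlib

/-!
# Chebotarev track, milestone 2 (cyclotomic crossing), node X2 (b), (c)

`L` a number field, `l` a prime with `l ∤ disc L`, `L' = L(ζ_l)`.

* `finrank_eq_of_not_dvd_discr` : `[L(ζ_l) : L] = l - 1` (`ℚ(ζ_l)` and `L` are linearly disjoint
  because their discriminants are coprime);
* `irreducible_cyclotomic_of_not_dvd_discr` : `Φ_l` is irreducible over `L`;
* `exists_primitive_root_nat` : a primitive root modulo `l`, as a natural number;
* `exists_lift_apply_zeta_eq_pow` : for `K ⊆ L` with `L / K` and `L' / K` normal, `g ∈ Gal(L/K)` and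
  `a` prime to `l` there is `ρ ∈ Gal(L'/K)` with `ρ|_L = g` and `ρ ζ = ζ ^ a`.
-/

set_option autoImplicit false

open Polynomial NumberField IntermediateField

namespace Fermat.Agent.Cheb.Cross

section Degree

variable {L L' : Type*} [Field L] [NumberField L] [Field L'] [NumberField L'] [Algebra L L']
  (l : ℕ) [hl : Fact l.Prime] [IsCyclotomicExtension {l} L L']

/-- the degree of `L(ζ_l)/L` is `l - 1` if `l ∤ disc L` -/
theorem finrank_eq_of_not_dvd_discr (h : ¬ (l : ℤ) ∣ NumberField.discr L) :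
    Module.finrank L L' = l - 1 := by
  have hl0 : NeZero l := ⟨hl.out.ne_zero⟩
  set ζ : L' := IsCyclotomicExtension.zeta l L L' with hζdef
  have hζ : IsPrimitiveRoot ζ l := IsCyclotomicExtension.zeta_spec l L L'
  -- the two subfields
  set K₁ : IntermediateField ℚ L' := ℚ⟮ζ⟯ with hK₁
  set K₂ : IntermediateField ℚ L' := (IsScalarTower.toAlgHom ℚ L L').fieldRange with hK₂
  have hcyc : IsCyclotomicExtension {l} ℚ K₁ := hζ.intermediateField_adjoin_isCyclotomicExtension ℚ
  have hgal : IsGalois ℚ K₁ := IsCyclotomicExtension.isGalois {l} ℚ K₁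
  -- discriminants
  have hd₁ : NumberField.discr K₁ = (-1) ^ ((l - 1) / 2) * (l : ℤ) ^ (l - 2) :=
    IsCyclotomicExtension.Rat.discr_prime l K₁
  let e : L ≃ₐ[ℚ] K₂ := AlgEquiv.ofInjectiveField (IsScalarTower.toAlgHom ℚ L L')
  have hd₂ : NumberField.discr K₂ = NumberField.discr L :=
    (NumberField.discr_eq_discr_of_algEquiv L e).symm
  have hcop : IsCoprime (NumberField.discr K₁) (NumberField.discr K₂) := by
    rw [hd₁, hd₂, Int.isCoprime_iff_nat_coprime, Int.natAbs_mul, Int.natAbs_pow, Int.natAbs_pow,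
      Int.natAbs_neg, Int.natAbs_one, one_pow, one_mul, Int.natAbs_natCast]
    apply Nat.Coprime.pow_left
    rw [Nat.Prime.coprime_iff_not_dvd hl.out]
    intro hdvd
    exact h (Int.natCast_dvd.mpr hdvd)
  have hdisj : K₁.LinearDisjoint K₂ :=
    NumberField.linearDisjoint_of_isGalois_isCoprime_discr L' K₁ K₂ hcop
  -- the compositum is everything
  have htop : K₁ ⊔ K₂ = ⊤ := by
    let S : Subalgebra L L' :=
      { (K₁ ⊔ K₂).toSubfield.toSubring with
        algebraMap_mem' := fun x => by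
          have : algebraMap L L' x ∈ K₂ := ⟨x, rfl⟩
          exact (le_sup_right : K₂ ≤ K₁ ⊔ K₂) this }
    have hζS : ζ ∈ S := (le_sup_left : K₁ ≤ K₁ ⊔ K₂) (mem_adjoin_simple_self ℚ ζ)
    have hS : S = ⊤ := by
      rw [eq_top_iff, ← IsCyclotomicExtension.adjoin_primitive_root_eq_top hζ (A := L)]
      exact Algebra.adjoin_le (Set.singleton_subset_iff.mpr hζS)
    rw [eq_top_iff]
    intro x _
    have : x ∈ S := hS ▸ Algebra.mem_top
    exact this
  -- degrees
  have h1 : Module.finrank K₂ L' = Module.finrank ℚ K₁ := hdisj.finrank_right_eq_finrank htop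
  have h2 : Module.finrank ℚ K₁ = l - 1 := by
    rw [IsCyclotomicExtension.finrank (n := l) K₁ (cyclotomic.irreducible_rat hl.out.pos),
      Nat.totient_prime hl.out]
  have h3 : Module.finrank L L' = Module.finrank K₂ L' := by
    refine Algebra.finrank_eq_of_equiv_equiv e.toRingEquiv (RingEquiv.refl L') ?_
    ext x
    rfl
  rw [h3, h1, h2]

end Degree

section Irreducible

variable {L L' : Type*} [Field L] [NumberField L] [Field L'] [NumberField L'] [Algebra L L']
  (l : ℕ) [hl : Fact l.Prime] [IsCyclotomicExtension {l} L L']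

include L' in
/-- `Φ_l` is irreducible over a number field `L` with `l ∤ disc L`. -/
theorem irreducible_cyclotomic_of_not_dvd_discr (h : ¬ (l : ℤ) ∣ NumberField.discr L) :
    Irreducible (cyclotomic l L) := by
  have hl0 : NeZero l := ⟨hl.out.ne_zero⟩
  set ζ : L' := IsCyclotomicExtension.zeta l L L' with hζdef
  have hζ : IsPrimitiveRoot ζ l := IsCyclotomicExtension.zeta_spec l L L'
  have hint : IsIntegral L ζ := Algebra.IsIntegral.isIntegral ζ
  have hroot : aeval ζ (cyclotomic l L) = 0 := by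
    rw [aeval_def, eval₂_eq_eval_map, map_cyclotomic]
    exact hζ.isRoot_cyclotomic hl.out.pos
  have hdvd : minpoly L ζ ∣ cyclotomic l L := minpoly.dvd L ζ hroot
  have hdeg : (minpoly L ζ).natDegree = l - 1 := by
    rw [← IsPrimitiveRoot.powerBasis_dim L hζ, ← PowerBasis.finrank,
      finrank_eq_of_not_dvd_discr l h]
  have heq : cyclotomic l L = minpoly L ζ := by
    refine eq_of_monic_of_dvd_of_natDegree_le (minpoly.monic hint) (cyclotomic.monic l L) hdvd ?_
    rw [hdeg, natDegree_cyclotomic, Nat.totient_prime hl.out]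
  rw [heq]
  exact minpoly.irreducible hint

end Irreducible

/-- A primitive root modulo a prime, as a natural number. -/
theorem exists_primitive_root_nat (l : ℕ) [hl : Fact l.Prime] :
    ∃ a : ℕ, a.Coprime l ∧ ∀ k : ℕ, (a : ZMod l) ^ k = 1 → (l - 1) ∣ k := by
  obtain ⟨u, hu⟩ := IsCyclic.exists_generator (α := (ZMod l)ˣ)
  have hord : orderOf u = l - 1 := by
    rw [orderOf_eq_card_of_forall_mem_zpowers hu, Nat.card_eq_fintype_card, ZMod.card_units_eq_totient,
      Nat.totient_prime hl.out]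
  refine ⟨(u : ZMod l).val, ?_, fun k hk => ?_⟩
  · exact ZMod.val_coe_unit_coprime u
  · rw [ZMod.natCast_val, ZMod.cast_id', id, ← Units.val_pow_eq_pow_val, Units.val_eq_one] at hk
    rw [← hord]
    exact orderOf_dvd_of_pow_eq_one hk

section Lift

variable {K L L' : Type*} [Field K] [Field L] [NumberField L] [Field L'] [NumberField L']
  [Algebra K L] [Algebra L L'] [Algebra K L'] [IsScalarTower K L L'] [Normal K L] [Normal K L']
  (l : ℕ) [hl : Fact l.Prime] [IsCyclotomicExtension {l} L L']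

/-- Existence of `ρ ∈ Gal(L(ζ_l)/K)` with prescribed restriction to `L` and prescribed action on
`ζ_l`, when `l ∤ disc L`. -/
theorem exists_lift_apply_zeta_eq_pow (h : ¬ (l : ℤ) ∣ NumberField.discr L) {ζ : L'}
    (hζ : IsPrimitiveRoot ζ l) (g : L ≃ₐ[K] L) {a : ℕ} (ha : a.Coprime l) :
    ∃ ρ : L' ≃ₐ[K] L', (∀ x : L, ρ (algebraMap L L' x) = algebraMap L L' (g x)) ∧ ρ ζ = ζ ^ a := by
  have hl0 : NeZero l := ⟨hl.out.ne_zero⟩
  have hirr : Irreducible (cyclotomic l L) :=
    irreducible_cyclotomic_of_not_dvd_discr (L' := L') l h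
  obtain ⟨ρ₀, hρ₀⟩ := AlgEquiv.restrictNormalHom_surjective (F := K) (K₁ := L) L' g
  have hρ₀L : ∀ x : L, ρ₀ (algebraMap L L' x) = algebraMap L L' (g x) := by
    intro x
    rw [← hρ₀]
    exact (AlgEquiv.restrictNormal_commutes ρ₀ L x).symm
  have hμ : IsPrimitiveRoot (ρ₀ ζ) l := hζ.map_of_injective ρ₀.injective
  have hμ' : IsPrimitiveRoot (ζ ^ a) l := hζ.pow_of_coprime a ha
  set η₁ : L' ≃ₐ[L] L' := IsCyclotomicExtension.fromZetaAut hμ hirr with hη₁
  set η₂ : L' ≃ₐ[L] L' := IsCyclotomicExtension.fromZetaAut hμ' hirr with hη₂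
  have h₁ : η₁ (IsCyclotomicExtension.zeta l L L') = ρ₀ ζ :=
    IsCyclotomicExtension.fromZetaAut_spec hμ hirr
  have h₂ : η₂ (IsCyclotomicExtension.zeta l L L') = ζ ^ a :=
    IsCyclotomicExtension.fromZetaAut_spec hμ' hirr
  set η : L' ≃ₐ[L] L' := η₁.symm.trans η₂ with hη
  have hημ : η (ρ₀ ζ) = ζ ^ a := by
    rw [hη, AlgEquiv.trans_apply, ← h₁, AlgEquiv.symm_apply_apply, h₂]
  refine ⟨ρ₀.trans (η.restrictScalars K), fun x => ?_, ?_⟩
  · rw [AlgEquiv.trans_apply, hρ₀L x, AlgEquiv.restrictScalars_apply, AlgEquiv.commutes]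
  · rw [AlgEquiv.trans_apply, AlgEquiv.restrictScalars_apply, hημ]

end Lift

end Fermat.Agent.Cheb.Cross
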