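import Mathlib

/-!
# Chebotarev, exact form by cyclotomic crossing, node X3: the fixed field of `ρ`

Tower `K → L → L'`, `L' / K` finite Galois, `l` a prime, `ζ ∈ L'` a primitive `l`-th root of unity,
`g ∈ Gal(L/K)` with `g ^ n = 1` and `2 n ∣ l - 1`, and `ρ ∈ Gal(L'/K)` with `ρ|_L = g`,
`ρ ζ = ζ ^ a`, where `a` is a primitive root modulo `l`.  We assume that an automorphism of `L' / K`
fixing `L` and `ζ` is trivial (`L' = L(ζ)`).

* `pow_apply_zeta` : `ρ ^ k ζ = ζ ^ (a ^ k)`;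
* `pow_eq_one_iff` : `ρ ^ k = 1 ↔ l - 1 ∣ k`; `orderOf_eq`, `card_zpowers`;
* `eq_of_mem_zpowers_of_apply_zeta_eq` : the action on `ζ` is injective on `⟨ρ⟩`;
* `isTotallyComplex_fixedField` : if `L` is totally complex, so is the fixed field of `⟨ρ⟩`.
-/

set_option autoImplicit false
set_option linter.unusedSectionVars false

open NumberField

namespace Fermat.Agent.Cheb.Cross

/-! ### Powers of a primitive root of unity in a field -/

section Root

variable {E : Type*} [Field E] {l : ℕ} [Fact l.Prime] {ζ : E}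

theorem zeta_pow_eq_iff (hζ : IsPrimitiveRoot ζ l) (i j : ℕ) :
    ζ ^ i = ζ ^ j ↔ (i : ZMod l) = (j : ZMod l) := by
  have hl0 : l ≠ 0 := (Fact.out : l.Prime).ne_zero
  have hu : IsUnit ζ := hζ.isUnit hl0
  obtain ⟨u, rfl⟩ := hu
  have hu' : IsPrimitiveRoot u l := IsPrimitiveRoot.coe_units_iff.mp hζ
  rw [← Units.val_pow_eq_pow_val, ← Units.val_pow_eq_pow_val, Units.val_inj,
    pow_eq_pow_iff_modEq, ← hu'.eq_orderOf, ZMod.natCast_eq_natCast_iff]

theorem zeta_pow_eq_self_iff (hζ : IsPrimitiveRoot ζ l) (i : ℕ) :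
    ζ ^ i = ζ ↔ (i : ZMod l) = 1 := by
  have h := zeta_pow_eq_iff hζ i 1
  rwa [pow_one, Nat.cast_one] at h

theorem zeta_pow_eq_inv_iff (hζ : IsPrimitiveRoot ζ l) (i : ℕ) :
    ζ ^ i = ζ⁻¹ ↔ (i : ZMod l) = -1 := by
  have hl0 : l ≠ 0 := (Fact.out : l.Prime).ne_zero
  have hζ0 : ζ ≠ 0 := hζ.ne_zero hl0
  have h := zeta_pow_eq_iff hζ (i + 1) 0
  rw [pow_zero, pow_succ, Nat.cast_zero, Nat.cast_add, Nat.cast_one] at h
  constructor
  · intro hi
    have : ζ ^ i * ζ = 1 := by rw [hi, inv_mul_cancel₀ hζ0]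
    exact eq_neg_of_add_eq_zero_left (h.mp this)
  · intro hi
    have : ζ ^ i * ζ = 1 := h.mpr (by rw [hi]; ring)
    exact eq_inv_of_mul_eq_one_left this

end Root

/-! ### The order of `ρ` -/

section Order

variable {K L L' : Type*} [Field K] [Field L] [Field L'] [Algebra K L] [Algebra L L']
  [Algebra K L'] [IsScalarTower K L L'] {l : ℕ} [Fact l.Prime] {ζ : L'}
  {g : L ≃ₐ[K] L} {n : ℕ} {ρ : L' ≃ₐ[K] L'} {a : ℕ}

theorem pow_apply_zeta (hρζ : ρ ζ = ζ ^ a) (k : ℕ) : (ρ ^ k) ζ = ζ ^ (a ^ k) := by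
  induction k with
  | zero => simp
  | succ k ih =>
    rw [pow_succ, AlgEquiv.mul_apply, hρζ, map_pow, ih, ← pow_mul, ← pow_succ]

theorem pow_apply_algebraMap (hρL : ∀ x : L, ρ (algebraMap L L' x) = algebraMap L L' (g x))
    (k : ℕ) (x : L) : (ρ ^ k) (algebraMap L L' x) = algebraMap L L' ((g ^ k) x) := by
  induction k generalizing x with
  | zero => simp
  | succ k ih =>
    rw [pow_succ, AlgEquiv.mul_apply, hρL, ih, pow_succ, AlgEquiv.mul_apply]

/-- `a` is prime to `l`. -/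
theorem natCast_ne_zero_of_apply_zeta (hζ : IsPrimitiveRoot ζ l) (hρζ : ρ ζ = ζ ^ a) :
    (a : ZMod l) ≠ 0 := by
  have hl : l.Prime := Fact.out
  have h1 : IsPrimitiveRoot (ρ ζ) l := hζ.map_of_injective ρ.injective
  rw [hρζ, hζ.pow_iff_coprime hl.pos] at h1
  intro h0
  rw [ZMod.natCast_eq_zero_iff] at h0
  have : l ∣ Nat.gcd a l := Nat.dvd_gcd h0 dvd_rfl
  rw [h1] at this
  exact hl.one_lt.ne' (Nat.dvd_one.mp this)

theorem pow_eq_one_of_dvd (hgn : g ^ n = 1) {k : ℕ} (hk : n ∣ k) : g ^ k = 1 := by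
  obtain ⟨c, rfl⟩ := hk
  rw [pow_mul, hgn, one_pow]

variable (hζ : IsPrimitiveRoot ζ l) (hgn : g ^ n = 1) (hnl : 2 * n ∣ l - 1)
  (hρL : ∀ x : L, ρ (algebraMap L L' x) = algebraMap L L' (g x))
  (hρζ : ρ ζ = ζ ^ a) (ha : ∀ k : ℕ, (a : ZMod l) ^ k = 1 → (l - 1) ∣ k)
  (hdet : ∀ τ : L' ≃ₐ[K] L', (∀ x : L, τ (algebraMap L L' x) = algebraMap L L' x) →
    τ ζ = ζ → τ = 1)

include hζ hρζ ha in
theorem dvd_of_pow_apply_zeta {k : ℕ} (h : (ρ ^ k) ζ = ζ) : (l - 1) ∣ k := by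
  rw [pow_apply_zeta hρζ, zeta_pow_eq_self_iff hζ, Nat.cast_pow] at h
  exact ha k h

include hζ hgn hnl hρL hρζ ha hdet in
/-- `ρ ^ k = 1 ↔ l - 1 ∣ k`. -/
theorem pow_eq_one_iff (k : ℕ) : ρ ^ k = 1 ↔ (l - 1) ∣ k := by
  constructor
  · intro h
    refine dvd_of_pow_apply_zeta hζ hρζ ha ?_
    rw [h, AlgEquiv.one_apply]
  · intro h
    refine hdet _ (fun x => ?_) ?_
    · have hnk : n ∣ k := (Dvd.intro_left 2 rfl).trans (hnl.trans h)
      rw [pow_apply_algebraMap hρL, pow_eq_one_of_dvd hgn hnk, AlgEquiv.one_apply]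
    · rw [pow_apply_zeta hρζ, zeta_pow_eq_self_iff hζ, Nat.cast_pow]
      obtain ⟨c, rfl⟩ := h
      rw [pow_mul, ZMod.pow_card_sub_one_eq_one (natCast_ne_zero_of_apply_zeta hζ hρζ), one_pow]

include hζ hgn hnl hρL hρζ ha hdet in
theorem orderOf_eq : orderOf ρ = l - 1 := by
  apply Nat.dvd_antisymm
  · rw [orderOf_dvd_iff_pow_eq_one]
    exact (pow_eq_one_iff hζ hgn hnl hρL hρζ ha hdet (l - 1)).mpr dvd_rfl
  · exact (pow_eq_one_iff hζ hgn hnl hρL hρζ ha hdet (orderOf ρ)).mp (pow_orderOf_eq_one ρ)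

include hζ hgn hnl hρL hρζ ha hdet in
theorem card_zpowers : Nat.card (Subgroup.zpowers ρ) = l - 1 := by
  rw [Nat.card_zpowers, orderOf_eq hζ hgn hnl hρL hρζ ha hdet]

include hζ hgn hnl hρL hρζ ha hdet in
theorem isOfFinOrder : IsOfFinOrder ρ := by
  have hl : l.Prime := Fact.out
  rw [isOfFinOrder_iff_pow_eq_one]
  exact ⟨l - 1, Nat.sub_pos_of_lt hl.one_lt,
    (pow_eq_one_iff hζ hgn hnl hρL hρζ ha hdet (l - 1)).mpr dvd_rfl⟩

include hζ hgn hnl hρL hρζ ha hdet in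
/-- Every element of `⟨ρ⟩` is a power `ρ ^ k` with `k : ℕ`. -/
theorem exists_pow_eq_of_mem_zpowers {τ : L' ≃ₐ[K] L'} (hτ : τ ∈ Subgroup.zpowers ρ) :
    ∃ k : ℕ, ρ ^ k = τ := by
  have h := ((isOfFinOrder hζ hgn hnl hρL hρζ ha hdet).mem_powers_iff_mem_zpowers).mpr hτ
  exact Submonoid.mem_powers_iff _ _ |>.mp h

include hζ hgn hnl hρL hρζ ha hdet in
/-- An element of `⟨ρ⟩` fixing `ζ` is trivial. -/
theorem eq_one_of_mem_zpowers_of_apply_zeta {τ : L' ≃ₐ[K] L'} (hτ : τ ∈ Subgroup.zpowers ρ)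
    (h : τ ζ = ζ) : τ = 1 := by
  obtain ⟨k, rfl⟩ := exists_pow_eq_of_mem_zpowers hζ hgn hnl hρL hρζ ha hdet hτ
  exact (pow_eq_one_iff hζ hgn hnl hρL hρζ ha hdet k).mpr (dvd_of_pow_apply_zeta hζ hρζ ha h)

include hζ hgn hnl hρL hρζ ha hdet in
/-- **The action on `ζ` is injective on `⟨ρ⟩`.** -/
theorem eq_of_mem_zpowers_of_apply_zeta_eq {τ₁ τ₂ : L' ≃ₐ[K] L'}
    (h₁ : τ₁ ∈ Subgroup.zpowers ρ) (h₂ : τ₂ ∈ Subgroup.zpowers ρ) (h : τ₁ ζ = τ₂ ζ) :
    τ₁ = τ₂ := by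
  have h3 : τ₂⁻¹ * τ₁ ∈ Subgroup.zpowers ρ := Subgroup.mul_mem _ (Subgroup.inv_mem _ h₂) h₁
  have h4 : (τ₂⁻¹ * τ₁) ζ = ζ := by
    rw [AlgEquiv.mul_apply, h]
    exact τ₂.symm_apply_apply ζ
  have h5 := eq_one_of_mem_zpowers_of_apply_zeta hζ hgn hnl hρL hρζ ha hdet h3 h4
  exact (inv_mul_eq_one.mp h5).symm

include hζ hgn hnl hρL hρζ ha in
/-- An element `ρ ^ k` inverting `ζ` acts trivially on `L`. -/
theorem pow_apply_algebraMap_of_apply_zeta_eq_inv {k : ℕ} (h : (ρ ^ k) ζ = ζ⁻¹) (x : L) :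
    (ρ ^ k) (algebraMap L L' x) = algebraMap L L' x := by
  rw [pow_apply_zeta hρζ, zeta_pow_eq_inv_iff hζ, Nat.cast_pow] at h
  have h2 : (a : ZMod l) ^ (2 * k) = 1 := by
    rw [mul_comm, pow_mul, h]
    ring
  have h3 : 2 * n ∣ 2 * k := hnl.trans (ha _ h2)
  have hnk : n ∣ k := Nat.dvd_of_mul_dvd_mul_left two_pos h3
  rw [pow_apply_algebraMap hρL, pow_eq_one_of_dvd hgn hnk, AlgEquiv.one_apply]

end Order

/-! ### `hdet` from `L' = L(ζ)` -/

section Adjoin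

variable {K L L' : Type*} [Field K] [Field L] [Field L'] [Algebra K L] [Algebra L L']
  [Algebra K L'] [IsScalarTower K L L'] {ζ : L'}

/-- If `L' = L[ζ]`, an automorphism of `L' / K` fixing `L` and `ζ` is trivial. -/
theorem eq_one_of_adjoin_eq_top (hadj : Algebra.adjoin L {ζ} = ⊤) (τ : L' ≃ₐ[K] L')
    (hL : ∀ x : L, τ (algebraMap L L' x) = algebraMap L L' x) (hτζ : τ ζ = ζ) : τ = 1 := by
  let τ' : L' →ₐ[L] L' := { (τ : L' →+* L') with commutes' := hL }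
  have h : τ' = AlgHom.id L L' := by
    refine AlgHom.ext_of_adjoin_eq_top hadj ?_
    intro x hx
    rw [Set.mem_singleton_iff] at hx
    subst hx
    exact hτζ
  ext x
  exact DFunLike.congr_fun h x

end Adjoin

/-! ### The fixed field is totally complex -/

section Complex

variable {K L L' : Type*} [Field K] [Field L] [Field L'] [Algebra K L] [Algebra L L']
  [Algebra K L'] [IsScalarTower K L L'] [FiniteDimensional K L'] [IsGalois K L']
  {l : ℕ} [Fact l.Prime] {ζ : L'}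
  {g : L ≃ₐ[K] L} {n : ℕ} {ρ : L' ≃ₐ[K] L'} {a : ℕ}
  (hζ : IsPrimitiveRoot ζ l) (hgn : g ^ n = 1) (hnl : 2 * n ∣ l - 1)
  (hρL : ∀ x : L, ρ (algebraMap L L' x) = algebraMap L L' (g x))
  (hρζ : ρ ζ = ζ ^ a) (ha : ∀ k : ℕ, (a : ZMod l) ^ k = 1 → (l - 1) ∣ k)
  (hdet : ∀ τ : L' ≃ₐ[K] L', (∀ x : L, τ (algebraMap L L' x) = algebraMap L L' x) →
    τ ζ = ζ → τ = 1)

include hζ hgn hnl hρL hρζ ha hdet in
/-- **The fixed field of `⟨ρ⟩` is totally complex** if `L` is. -/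
theorem isTotallyComplex_fixedField [IsTotallyComplex L] :
    IsTotallyComplex ↥(IntermediateField.fixedField (Subgroup.zpowers ρ)) := by
  have hl : l.Prime := Fact.out
  set M := IntermediateField.fixedField (Subgroup.zpowers ρ) with hM
  refine ⟨fun w => ?_⟩
  by_contra hw
  have hreal : w.IsReal := InfinitePlace.not_isComplex_iff_isReal.mp hw
  have hψ : ComplexEmbedding.conjugate w.embedding = w.embedding :=
    ComplexEmbedding.isReal_iff.mp (InfinitePlace.isReal_iff.mp hreal)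
  -- extend to `L'`
  set ψ' : L' →+* ℂ := ComplexEmbedding.lift L' w.embedding with hψ'
  have hres : ψ'.comp (algebraMap M L') = w.embedding :=
    ComplexEmbedding.lift_comp_algebraMap L' w.embedding
  have hcomp : ψ'.comp (algebraMap M L') = (ComplexEmbedding.conjugate ψ').comp (algebraMap M L') := by
    rw [ComplexEmbedding.conjugate_comp, hres, hψ]
  obtain ⟨σ, hσ⟩ := ComplexEmbedding.exists_comp_symm_eq_of_comp_eq ψ'
    (ComplexEmbedding.conjugate ψ') hcomp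
  -- the conjugation `c`, as an element of `Gal(L'/K)`
  set c : L' ≃ₐ[K] L' := σ.symm.restrictScalars K with hc
  have hcapply : ∀ x : L', ψ' (c x) = (starRingEnd ℂ) (ψ' x) := fun x => by
    have h1 : c x = σ.symm x := rfl
    have := RingHom.congr_fun hσ x
    rw [h1]
    simpa using this
  have hcmem : c ∈ Subgroup.zpowers ρ := by
    rw [← IntermediateField.fixingSubgroup_fixedField (Subgroup.zpowers ρ),
      IntermediateField.mem_fixingSubgroup_iff]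
    intro x hx
    exact σ.symm.commutes ⟨x, hx⟩
  obtain ⟨k, hk⟩ := exists_pow_eq_of_mem_zpowers hζ hgn hnl hρL hρζ ha hdet hcmem
  -- `c ζ = ζ⁻¹`
  have hcζ : c ζ = ζ⁻¹ := by
    apply ψ'.injective
    rw [hcapply, map_inv₀]
    have hnorm : ‖ψ' ζ‖ = 1 := by
      apply Complex.norm_eq_one_of_pow_eq_one (n := l) _ hl.ne_zero
      rw [← map_pow, hζ.pow_eq_one, map_one]
    exact (Complex.inv_eq_conj hnorm).symm
  -- hence `c` is trivial on `L`, and `ψ'|_L` is real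
  have hcL : ∀ x : L, c (algebraMap L L' x) = algebraMap L L' x := fun x => by
    rw [← hk]
    exact pow_apply_algebraMap_of_apply_zeta_eq_inv hζ hgn hnl hρL hρζ ha (by rw [hk]; exact hcζ) x
  have hLreal : ComplexEmbedding.IsReal (ψ'.comp (algebraMap L L')) := by
    rw [ComplexEmbedding.isReal_iff]
    ext x
    simp only [ComplexEmbedding.conjugate_coe_eq, RingHom.coe_comp, Function.comp_apply]
    rw [← hcapply, hcL]
  exact IsTotallyComplex.complexEmbedding_not_isReal _ hLreal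

end Complex

end Fermat.Agent.Cheb.Cross
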