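import Mathlib

/-!
# Chebotarev track, milestone 2, node X4: the norm residue map

`M` a number field, `l` a prime.  `normRes M l I ∈ (ZMod l)ˣ` is the class of `N(I)` modulo `l`
(and `1` if `l ∣ N(I)`).  With `m = (l)` it satisfies the hypotheses of the class density theorem
(`hc1`, `hcmul`, `hcP`, `hcN`, `hsurj` of `CFT.Second.card_le_finrank_of_ideal_map`):

* `normRes_top`, `normRes_mul` (`hc1`, `hcmul`);
* `normRes_span_singleton` (`hcP`), for `M` TOTALLY COMPLEX: `α ≡ 1 mod l` implies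
  `N(α) ≡ 1 mod l` (`intCast_norm_eq_one_of_sub_one_mem`) and `N(α) > 0`
  (`norm_pos_of_isTotallyComplex`);
* `normRes_relNorm` (`hcN`), for an extension `L/M` containing a primitive `l`-th root of unity:
  the primes `w ∤ l` of `L` have `N(w) ≡ 1 mod l`;
* `normRes_surjective_of_generator` (`hsurj`) from a prime whose class generates `(ZMod l)ˣ`.
-/

set_option autoImplicit false
set_option linter.style.haveILetI false

open NumberField IsDedekindDomain

namespace Fermat.Agent.Cheb.Cross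

/-- In a totally complex number field every nonzero element has positive norm. -/
theorem norm_pos_of_isTotallyComplex {M : Type*} [Field M] [NumberField M]
    [NumberField.IsTotallyComplex M] {x : M} (hx : x ≠ 0) : 0 < Algebra.norm ℚ x := by
  classical
  have h1 : ((Algebra.norm ℚ x : ℚ) : ℂ) = ∏ φ : M →+* ℂ, φ x := by
    have h := Algebra.norm_eq_prod_embeddings ℚ ℂ x
    rw [eq_ratCast] at h
    rw [h]
    exact (Fintype.prod_equiv (RingHom.equivRatAlgHom M ℂ) (fun f => f x)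
      (fun φ => φ x) fun _ => by simp [RingHom.equivRatAlgHom_apply]).symm
  have hne : ∀ φ : M →+* ℂ, φ x ≠ 0 := fun φ => (map_ne_zero φ).mpr hx
  have h2 : ∏ φ : M →+* ℂ, (φ x / ((‖φ x‖ : ℝ) : ℂ)) = 1 := by
    apply Finset.prod_ninvolution (fun φ => ComplexEmbedding.conjugate φ)
    · intro φ
      have hn : ((‖φ x‖ : ℝ) : ℂ) ≠ 0 := by
        rw [Ne, Complex.ofReal_eq_zero, norm_eq_zero]
        exact hne φ
      have hc : ComplexEmbedding.conjugate φ x = (starRingEnd ℂ) (φ x) := rfl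
      rw [hc, Complex.norm_conj, div_mul_div_comm, Complex.mul_conj, Complex.normSq_eq_norm_sq,
        Complex.ofReal_pow, sq, div_self (mul_ne_zero hn hn)]
    · intro φ _ h
      exact IsTotallyComplex.complexEmbedding_not_isReal φ h
    · intro φ
      exact Finset.mem_univ _
    · intro φ
      exact star_star φ
  have hP : ((∏ φ : M →+* ℂ, ‖φ x‖ : ℝ) : ℂ) ≠ 0 := by
    rw [Ne, Complex.ofReal_eq_zero, Finset.prod_eq_zero_iff]
    rintro ⟨φ, -, h⟩
    exact hne φ (norm_eq_zero.mp h)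
  have h3 : ∏ φ : M →+* ℂ, φ x = ((∏ φ : M →+* ℂ, ‖φ x‖ : ℝ) : ℂ) := by
    rw [Finset.prod_div_distrib, ← Complex.ofReal_prod, div_eq_one_iff_eq hP] at h2
    exact h2
  have h4 : (0 : ℝ) < ∏ φ : M →+* ℂ, ‖φ x‖ :=
    Finset.prod_pos fun φ _ => norm_pos_iff.mpr (hne φ)
  have h5 : ((Algebra.norm ℚ x : ℚ) : ℝ) = ∏ φ : M →+* ℂ, ‖φ x‖ := by
    apply Complex.ofReal_injective
    rw [← h3, ← h1]
    simp
  have h6 : (0 : ℝ) < ((Algebra.norm ℚ x : ℚ) : ℝ) := h5 ▸ h4
  exact_mod_cast h6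


section NormRes

variable (M : Type*) [Field M] [NumberField M] (l : ℕ) [Fact l.Prime]

/-- The norm residue map: the class of `N(I)` modulo `l` (and `1` if `l ∣ N(I)`). -/
noncomputable def normRes (I : Ideal (𝓞 M)) : (ZMod l)ˣ := by
  classical
  exact if h : IsUnit ((Ideal.absNorm I : ℕ) : ZMod l) then h.unit else 1

variable {M l}

/-- An ideal coprime to `l` has norm coprime to `l`. -/
theorem coprime_absNorm_of_isCoprime {I : Ideal (𝓞 M)}
    (h : IsCoprime I (Ideal.span {(l : 𝓞 M)})) : (Ideal.absNorm I).Coprime l := by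
  have hl : l.Prime := Fact.out
  rw [Nat.coprime_comm, hl.coprime_iff_not_dvd]
  intro hdvd
  obtain ⟨P, hPmax, hPl, hPI⟩ := Ideal.exists_isMaximal_dvd_of_dvd_absNorm' hl I hdvd
  have h1 : I ≤ P := Ideal.le_of_dvd hPI
  have h2 : (l : 𝓞 M) ∈ P := by
    have : ((l : ℕ) : ℤ) ∈ P.under ℤ := by
      rw [hPl]
      exact Ideal.subset_span rfl
    rw [Ideal.under_def, Ideal.mem_comap] at this
    simpa using this
  have h3 : I ⊔ Ideal.span {(l : 𝓞 M)} ≤ P :=
    sup_le h1 ((Ideal.span_singleton_le_iff_mem P).mpr h2)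
  rw [Ideal.isCoprime_iff_sup_eq] at h
  rw [h, top_le_iff] at h3
  exact hPmax.ne_top h3

theorem isUnit_absNorm_of_isCoprime {I : Ideal (𝓞 M)}
    (h : IsCoprime I (Ideal.span {(l : 𝓞 M)})) : IsUnit ((Ideal.absNorm I : ℕ) : ZMod l) :=
  (ZMod.isUnit_iff_coprime _ _).mpr (coprime_absNorm_of_isCoprime h)

theorem coe_normRes_of_isUnit {I : Ideal (𝓞 M)} (h : IsUnit ((Ideal.absNorm I : ℕ) : ZMod l)) :
    ((normRes M l I : (ZMod l)ˣ) : ZMod l) = ((Ideal.absNorm I : ℕ) : ZMod l) := by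
  unfold normRes
  rw [dif_pos h]
  rfl

theorem coe_normRes_of_isCoprime {I : Ideal (𝓞 M)}
    (h : IsCoprime I (Ideal.span {(l : 𝓞 M)})) :
    ((normRes M l I : (ZMod l)ˣ) : ZMod l) = ((Ideal.absNorm I : ℕ) : ZMod l) :=
  coe_normRes_of_isUnit (isUnit_absNorm_of_isCoprime h)

/-- `hc1`. -/
theorem normRes_top : normRes M l (⊤ : Ideal (𝓞 M)) = 1 := by
  apply Units.ext
  rw [coe_normRes_of_isUnit (by simp), Ideal.absNorm_top]
  simp

/-- `hcmul`. -/
theorem normRes_mul (I J : Ideal (𝓞 M)) (_hI0 : I ≠ ⊥) (_hJ0 : J ≠ ⊥)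
    (hI : IsCoprime I (Ideal.span {(l : 𝓞 M)})) (hJ : IsCoprime J (Ideal.span {(l : 𝓞 M)})) :
    normRes M l (I * J) = normRes M l I * normRes M l J := by
  apply Units.ext
  rw [Units.val_mul, coe_normRes_of_isCoprime hI, coe_normRes_of_isCoprime hJ,
    coe_normRes_of_isCoprime (hI.mul_left hJ), map_mul, Nat.cast_mul]

theorem normRes_pow (I : Ideal (𝓞 M)) (hI0 : I ≠ ⊥)
    (hI : IsCoprime I (Ideal.span {(l : 𝓞 M)})) (k : ℕ) :
    normRes M l (I ^ k) = normRes M l I ^ k := by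
  induction k with
  | zero => rw [pow_zero, pow_zero, Ideal.one_eq_top, normRes_top]
  | succ k ih =>
    rw [pow_succ, pow_succ, normRes_mul _ _ (pow_ne_zero k hI0) hI0 (hI.pow_left) hI, ih]

/-- `hsurj`, from a prime whose class generates. -/
theorem normRes_surjective_of_generator (P : Ideal (𝓞 M)) (hP0 : P ≠ ⊥)
    (hP : IsCoprime P (Ideal.span {(l : 𝓞 M)}))
    (hgen : Subgroup.zpowers (normRes M l P) = ⊤) (a : (ZMod l)ˣ) :
    ∃ I : Ideal (𝓞 M), I ≠ ⊥ ∧ IsCoprime I (Ideal.span {(l : 𝓞 M)}) ∧ normRes M l I = a := by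
  have ha : a ∈ Subgroup.zpowers (normRes M l P) := hgen ▸ Subgroup.mem_top a
  rw [← mem_powers_iff_mem_zpowers, Submonoid.mem_powers_iff] at ha
  obtain ⟨k, hk⟩ := ha
  exact ⟨P ^ k, pow_ne_zero k hP0, hP.pow_left, by rw [normRes_pow P hP0 hP, hk]⟩

end NormRes

section NormOne

variable {M : Type*} [Field M] [NumberField M] {l : ℕ} [Fact l.Prime]

/-- If `α ≡ 1 mod l 𝓞_M` then `N(α) ≡ 1 mod l`. -/
theorem intCast_norm_eq_one_of_sub_one_mem {α : 𝓞 M}
    (h : α - 1 ∈ Ideal.span {(l : 𝓞 M)}) : ((Algebra.norm ℤ α : ℤ) : ZMod l) = 1 := by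
  classical
  obtain ⟨β, hβ⟩ := Ideal.mem_span_singleton.mp h
  have hα : α = 1 + (l : 𝓞 M) * β := by rw [← hβ]; ring
  set b := NumberField.RingOfIntegers.basis M with hb
  rw [Algebra.norm_eq_matrix_det b α]
  have hdet := RingHom.map_det (Int.castRingHom (ZMod l)) (Algebra.leftMulMatrix b α)
  rw [eq_intCast] at hdet
  rw [hdet, hα, map_add, map_one, map_mul, map_natCast, map_add, map_one, map_mul, map_natCast]
  have h0 : ((l : ℕ) : Matrix (Module.Free.ChooseBasisIndex ℤ (𝓞 M))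
      (Module.Free.ChooseBasisIndex ℤ (𝓞 M)) (ZMod l)) = 0 := by
    have e : ((l : ℕ) : Matrix (Module.Free.ChooseBasisIndex ℤ (𝓞 M))
        (Module.Free.ChooseBasisIndex ℤ (𝓞 M)) (ZMod l)) =
        algebraMap (ZMod l) _ ((l : ℕ) : ZMod l) := (map_natCast _ _).symm
    rw [e, ZMod.natCast_self, map_zero]
  rw [h0, zero_mul, add_zero, Matrix.det_one]

end NormOne

section Hyp

variable {M : Type*} [Field M] [NumberField M] {l : ℕ} [Fact l.Prime]

/-- `hm`: the modulus `(l)` is nonzero. -/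
theorem span_natCast_ne_bot : Ideal.span {(l : 𝓞 M)} ≠ ⊥ := by
  rw [Ne, Ideal.span_singleton_eq_bot, Nat.cast_eq_zero]
  exact (Fact.out : l.Prime).ne_zero

/-- `hcP`: in a totally complex field, principal ideals `(α)` with `α ≡ 1 mod l` have trivial norm
residue. -/
theorem normRes_span_singleton [NumberField.IsTotallyComplex M] (α : 𝓞 M) (hα : α ≠ 0)
    (h : α - 1 ∈ Ideal.span {(l : 𝓞 M)}) : normRes M l (Ideal.span {α}) = 1 := by
  have hn : 0 < Algebra.norm ℤ α := by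
    have h1 : (0 : ℚ) < Algebra.norm ℚ (α : M) :=
      norm_pos_of_isTotallyComplex (by simpa using hα)
    rw [← Algebra.coe_norm_int] at h1
    exact_mod_cast h1
  have habs : ((Ideal.absNorm (Ideal.span {α}) : ℕ) : ZMod l) = 1 := by
    rw [Ideal.absNorm_span_singleton]
    have e : (((Algebra.norm ℤ α).natAbs : ℕ) : ZMod l) = ((Algebra.norm ℤ α : ℤ) : ZMod l) := by
      rw [← Int.cast_natCast, Int.natAbs_of_nonneg hn.le]
    rw [e, intCast_norm_eq_one_of_sub_one_mem h]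
  apply Units.ext
  rw [coe_normRes_of_isUnit (by rw [habs]; exact isUnit_one), habs]
  rfl

/-- A prime `w ∤ l` of a number field containing a primitive `l`-th root of unity has
`N(w) ≡ 1 mod l`. -/
theorem natCast_absNorm_eq_one_of_isPrimitiveRoot {L : Type*} [Field L] [NumberField L]
    {ζ : 𝓞 L} (hζ : IsPrimitiveRoot ζ l) (w : HeightOneSpectrum (𝓞 L))
    (hw : (l : 𝓞 L) ∉ w.asIdeal) : ((Ideal.absNorm w.asIdeal : ℕ) : ZMod l) = 1 := by
  have hl : l.Prime := Fact.out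
  haveI : NeZero l := ⟨hl.ne_zero⟩
  haveI hmax : w.asIdeal.IsMaximal := w.isMaximal
  have h1 : Ideal.absNorm w.asIdeal ≠ 1 := by
    rw [Ne, Ideal.absNorm_eq_one_iff]
    exact hmax.ne_top
  have hcop : IsCoprime w.asIdeal (Ideal.span {(l : 𝓞 L)}) := by
    rw [Ideal.isCoprime_iff_sup_eq]
    by_contra hne
    have := hmax.eq_of_le hne le_sup_left
    apply hw
    rw [this]
    exact Ideal.mem_sup_right (Ideal.subset_span rfl)
  have h2 : (Ideal.absNorm w.asIdeal).Coprime l := coprime_absNorm_of_isCoprime hcop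
  have hprim := hζ.idealQuotient_mk h1 h2
  letI := Ideal.Quotient.field w.asIdeal
  letI : Fintype (𝓞 L ⧸ w.asIdeal) := Fintype.ofFinite _
  have hne : (Ideal.Quotient.mk w.asIdeal ζ) ≠ 0 := hprim.ne_zero hl.ne_zero
  have hpow := FiniteField.pow_card_sub_one_eq_one _ hne
  have hdvd : l ∣ Fintype.card (𝓞 L ⧸ w.asIdeal) - 1 := hprim.dvd_of_pow_eq_one _ hpow
  have hcard : Fintype.card (𝓞 L ⧸ w.asIdeal) = Ideal.absNorm w.asIdeal := by
    rw [← Nat.card_eq_fintype_card, Ideal.absNorm_apply, Submodule.cardQuot_apply]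
  rw [hcard] at hdvd
  have hpos : 1 ≤ Ideal.absNorm w.asIdeal := by
    rcases Nat.eq_zero_or_pos (Ideal.absNorm w.asIdeal) with h0 | h0
    · exfalso
      rw [h0] at h2
      rw [Nat.coprime_zero_left] at h2
      exact hl.one_lt.ne' h2
    · exact h0
  have e : Ideal.absNorm w.asIdeal = (Ideal.absNorm w.asIdeal - 1) + 1 := by omega
  rw [e, Nat.cast_add, (ZMod.natCast_eq_zero_iff _ _).mpr hdvd, zero_add, Nat.cast_one]

/-- `hcN`: the norms of the primes `w ∤ l` of an extension containing a primitive `l`-th root of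
unity have trivial norm residue. -/
theorem normRes_relNorm {L : Type*} [Field L] [NumberField L] [Algebra M L]
    {ζ : 𝓞 L} (hζ : IsPrimitiveRoot ζ l) (w : HeightOneSpectrum (𝓞 L))
    (hw : IsCoprime (w.under (𝓞 M)).asIdeal (Ideal.span {(l : 𝓞 M)})) :
    normRes M l (Ideal.relNorm (𝓞 M) w.asIdeal) = 1 := by
  have hlw : (l : 𝓞 L) ∉ w.asIdeal := by
    intro hmem
    have h1 : (l : 𝓞 M) ∈ (w.under (𝓞 M)).asIdeal := by
      rw [HeightOneSpectrum.under_asIdeal, Ideal.under_def, Ideal.mem_comap, map_natCast]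
      exact hmem
    rw [Ideal.isCoprime_iff_sup_eq] at hw
    have h2 : (w.under (𝓞 M)).asIdeal ⊔ Ideal.span {(l : 𝓞 M)} ≤ (w.under (𝓞 M)).asIdeal :=
      sup_le le_rfl ((Ideal.span_singleton_le_iff_mem _).mpr h1)
    rw [hw, top_le_iff] at h2
    exact (w.under (𝓞 M)).isPrime.ne_top h2
  have habs : ((Ideal.absNorm (Ideal.relNorm (𝓞 M) w.asIdeal) : ℕ) : ZMod l) = 1 := by
    rw [Ideal.absNorm_relNorm]
    exact natCast_absNorm_eq_one_of_isPrimitiveRoot hζ w hlw
  apply Units.ext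
  rw [coe_normRes_of_isUnit (by rw [habs]; exact isUnit_one), habs]
  rfl

end Hyp

end Fermat.Agent.Cheb.Cross
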