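import Fermat.Agent.Cheb.Cross.Statements
import Fermat.Agent.Cheb.Cross.Tower
import Fermat.Agent.Cheb.Cross.Cyclo
import Fermat.Agent.Cheb.Cross.CycloGalois
import Fermat.Agent.Cheb.Cross.FixedField
import Fermat.Agent.Cheb.Cross.NormClass
import Fermat.Agent.Cheb.ClassDensity
import Fermat.Agent.Cheb.ChebGenMain
import Fermat.Agent.Cheb.DeuringNF

/-!
# Chebotarev track, milestone 2 (cyclotomic crossing), node X5: the exact form for cyclic
extensions with totally complex top field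

`cyclicExactFrobTC : CyclicExactFrobTC`: for `L / K` Galois with `L` totally complex and `g` a
generator of `Gal(L/K)` there is a prime `Q` of `L` over a degree-one prime of `K` of norm `q ∉ T`
with `g` an arithmetic Frobenius at `Q`.

Proof (Chebotarev's cyclotomic crossing, `findings` C-M2-crossing blueprint): choose a prime
`l ≡ 1 mod 2 [L:K]`, `l ∤ disc L`; `L' = L(ζ_l)`; `ρ ∈ Gal(L'/K)` with `ρ|_L = g`, `ρ ζ = ζ ^ a`,
`a` a primitive root mod `l`; `M = L'^⟨ρ⟩` is totally complex and `Gal(L'/M) = ⟨ρ⟩ ↪ (ZMod l)ˣ`.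
The class density theorem for the norm residue map of `M` gives a degree-one prime `v` of `M` with
`N v ≡ a mod l`; its Frobenius in `L'/M` is `ρ`; the tower transfer gives the claim for `g`.
-/

set_option autoImplicit false
set_option linter.style.haveILetI false
set_option linter.unusedSectionVars false

open NumberField IsDedekindDomain

namespace Fermat.Agent.Cheb.Cross

/-! ### Group-theoretic core -/

section Core

variable {K L L' : Type*} [Field K] [Field L] [Field L'] [Algebra K L] [Algebra L L']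
  [Algebra K L'] [IsScalarTower K L L'] {l : ℕ} [Fact l.Prime] {ζ : L'}
  {g : L ≃ₐ[K] L} {n : ℕ} {ρ : L' ≃ₐ[K] L'} {a : ℕ}
  (hζ : IsPrimitiveRoot ζ l) (hgn : g ^ n = 1) (hnl : 2 * n ∣ l - 1)
  (hρL : ∀ x : L, ρ (algebraMap L L' x) = algebraMap L L' (g x))
  (hρζ : ρ ζ = ζ ^ a) (ha : ∀ k : ℕ, (a : ZMod l) ^ k = 1 → (l - 1) ∣ k)
  (hdet : ∀ τ : L' ≃ₐ[K] L', (∀ x : L, τ (algebraMap L L' x) = algebraMap L L' x) →
    τ ζ = ζ → τ = 1)

include hζ hgn hnl hρL hρζ ha hdet in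
/-- An element of `⟨ρ⟩` acting on `ζ` as `ζ ↦ ζ ^ q` with `q ≡ a mod l` is `ρ`. -/
theorem eq_rho_of_apply_zeta {τ : L' ≃ₐ[K] L'} (hτ : τ ∈ Subgroup.zpowers ρ) {q : ℕ}
    (hτζ : τ ζ = ζ ^ q) (hq : (q : ZMod l) = (a : ZMod l)) : τ = ρ := by
  refine eq_of_mem_zpowers_of_apply_zeta_eq hζ hgn hnl hρL hρζ ha hdet hτ
    (Subgroup.mem_zpowers ρ) ?_
  rw [hτζ, hρζ]
  exact (zeta_pow_eq_iff hζ q a).mpr hq

include hζ hgn hnl hρL hρζ ha hdet in
/-- If `τ` generates `⟨ρ⟩` and acts on `ζ` as `ζ ↦ ζ ^ q`, then the class of `q` generates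
`(ZMod l)ˣ`. -/
theorem zpowers_eq_top_of_generator {τ : L' ≃ₐ[K] L'} (hτ : Subgroup.zpowers τ = Subgroup.zpowers ρ)
    {q : ℕ} (hτζ : τ ζ = ζ ^ q) {u : (ZMod l)ˣ} (hu : ((u : (ZMod l)ˣ) : ZMod l) = (q : ZMod l)) :
    Subgroup.zpowers u = ⊤ := by
  have hl : l.Prime := Fact.out
  have hτmem : τ ∈ Subgroup.zpowers ρ := hτ ▸ Subgroup.mem_zpowers τ
  have hordτ : orderOf τ = l - 1 := by
    rw [← Nat.card_zpowers, hτ, card_zpowers hζ hgn hnl hρL hρζ ha hdet]
  have hpow : ∀ k : ℕ, u ^ k = 1 → τ ^ k = 1 := by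
    intro k hk
    have h1 : (τ ^ k) ζ = ζ := by
      rw [pow_apply_zeta hτζ k, zeta_pow_eq_self_iff hζ, Nat.cast_pow, ← hu,
        ← Units.val_pow_eq_pow_val, hk, Units.val_one]
    exact eq_one_of_mem_zpowers_of_apply_zeta hζ hgn hnl hρL hρζ ha hdet
      (Subgroup.pow_mem _ hτmem k) h1
  have hdvd : l - 1 ∣ orderOf u := by
    rw [← hordτ]
    exact orderOf_dvd_of_pow_eq_one (hpow _ (pow_orderOf_eq_one u))
  have hcard : Nat.card (ZMod l)ˣ = l - 1 := by
    rw [Nat.card_eq_fintype_card, ZMod.card_units_eq_totient, Nat.totient_prime hl]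
  apply Subgroup.eq_top_of_card_eq
  rw [Nat.card_zpowers, hcard]
  exact Nat.dvd_antisymm (hcard ▸ orderOf_dvd_natCard u) hdvd

end Core

section Arith

variable {M L' : Type*} [Field M] [Field L'] [NumberField M] [NumberField L'] [Algebra M L']
  [IsGalois M L'] {l : ℕ} [Fact l.Prime]

/-- An arithmetic Frobenius at a prime not containing `l` raises the `l`-th roots of unity to the
power `#(𝓞 M / Q' ∩ 𝓞 M)`. -/
theorem apply_zeta_of_isArithFrobAt {τ : L' ≃ₐ[M] L'} {Q' : Ideal (𝓞 L')}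
    (H : IsArithFrobAt (𝓞 M) τ Q') {ζ : L'} (hζ : IsPrimitiveRoot ζ l)
    (hl : (l : 𝓞 L') ∉ Q') : τ ζ = ζ ^ Nat.card (𝓞 M ⧸ Q'.under (𝓞 M)) := by
  have hl0 : NeZero l := ⟨(Fact.out : l.Prime).ne_zero⟩
  set ζ' : 𝓞 L' := hζ.toInteger with hζ'
  have h1 : ζ' ^ l = 1 := by
    apply RingOfIntegers.ext
    change algebraMap (𝓞 L') L' (ζ' ^ l) = algebraMap (𝓞 L') L' 1
    rw [map_pow, map_one]
    exact hζ.pow_eq_one
  have h2 := AlgHom.IsArithFrobAt.apply_of_pow_eq_one H h1 hl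
  have h3 := congrArg (fun x : 𝓞 L' => (x : L')) h2
  simp only [map_pow] at h3
  exact h3

end Arith

section Aux

/-- The range of `Gal(E/M) → Gal(E/K)` is the fixing subgroup of `M`. -/
theorem range_restrictScalarsHom_eq {K E : Type*} [Field K] [Field E] [Algebra K E]
    (M : IntermediateField K E) :
    (AlgEquiv.restrictScalarsHom K : (E ≃ₐ[M] E) →* (E ≃ₐ[K] E)).range = M.fixingSubgroup := by
  ext τ
  constructor
  · rintro ⟨g, rfl⟩
    rw [IntermediateField.mem_fixingSubgroup_iff]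
    intro x hx
    exact g.commutes ⟨x, hx⟩
  · intro h
    exact ⟨IntermediateField.fixingSubgroupEquiv M ⟨τ, h⟩, by ext; rfl⟩

variable {M E : Type*} [Field M] [Field E] [NumberField M] [NumberField E] [Algebra M E]

/-- Two distinct rational primes cannot both lie in a prime ideal. -/
theorem natCast_notMem_of_ne {Q : Ideal (𝓞 E)} [hQ : Q.IsPrime] {l q : ℕ} (hl : l.Prime)
    (hq : q.Prime) (hne : q ≠ l) (hqQ : (q : 𝓞 E) ∈ Q) : (l : 𝓞 E) ∉ Q := by
  intro hlQ
  have hcop : Nat.Coprime l q := (Nat.coprime_primes hl hq).mpr hne.symm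
  have h1 : IsCoprime (l : ℤ) (q : ℤ) := Nat.isCoprime_iff_coprime.mpr hcop
  obtain ⟨u, v, huv⟩ := h1
  have h2 : ((u * l + v * q : ℤ) : 𝓞 E) ∈ Q := by
    push_cast
    exact Q.add_mem (Q.mul_mem_left _ hlQ) (Q.mul_mem_left _ hqQ)
  rw [huv, Int.cast_one] at h2
  exact hQ.ne_top ((Ideal.eq_top_iff_one Q).mpr h2)

/-- A nonzero prime of `𝓞 M` not containing `l` is coprime to `(l)`. -/
theorem isCoprime_span_natCast_of_notMem {P : Ideal (𝓞 M)} [hP : P.IsPrime] (hP0 : P ≠ ⊥) {l : ℕ}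
    (hl : (l : 𝓞 M) ∉ P) : IsCoprime P (Ideal.span {(l : 𝓞 M)}) := by
  have hmax : P.IsMaximal := hP.isMaximal hP0
  rw [Ideal.isCoprime_iff_sup_eq]
  by_contra hne
  have h1 : P ⊔ Ideal.span {(l : 𝓞 M)} = P :=
    (hmax.eq_of_le hne le_sup_left).symm
  apply hl
  rw [← h1]
  exact Ideal.mem_sup_right (Ideal.mem_span_singleton_self _)

end Aux

/-- A prime `l ≡ 1 mod 2n` not dividing a given nonzero integer. -/
theorem exists_prime_modEq_one_not_dvd (n : ℕ) (hn : n ≠ 0) (d : ℤ) (hd : d ≠ 0) :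
    ∃ l : ℕ, l.Prime ∧ 2 * n ∣ l - 1 ∧ ¬ (l : ℤ) ∣ d := by
  obtain ⟨l, hl, hgt, hmod⟩ := Nat.exists_prime_gt_modEq_one (k := 2 * n) d.natAbs (by omega)
  refine ⟨l, hl, ?_, ?_⟩
  · exact (Nat.modEq_iff_dvd' hl.one_lt.le).mp hmod.symm
  · intro hdvd
    have h1 : l ∣ d.natAbs := Int.natCast_dvd.mp hdvd
    have h2 : l ≤ d.natAbs := Nat.le_of_dvd (Int.natAbs_pos.mpr hd) h1
    omega

section Main

variable (K L : Type) [Field K] [Field L] [NumberField K] [NumberField L] [Algebra K L]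
  [IsGalois K L] [NumberField.IsTotallyComplex L]

/-- **Cyclotomic crossing.** -/
theorem exists_isArithFrobAt_of_isTotallyComplex (g : L ≃ₐ[K] L)
    (T : Finset ℕ) :
    ∃ Q : Ideal (𝓞 L), Q.IsPrime ∧
      (Nat.card (𝓞 K ⧸ Q.under (𝓞 K))).Prime ∧ Nat.card (𝓞 K ⧸ Q.under (𝓞 K)) ∉ T ∧
      IsArithFrobAt (𝓞 K) g Q := by
  classical
  -- the order of `g`
  set n : ℕ := Nat.card (L ≃ₐ[K] L) with hn
  have hn0 : n ≠ 0 := Nat.card_pos.ne'
  have hgn : g ^ n = 1 := pow_card_eq_one'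
  -- the auxiliary prime `l`
  obtain ⟨l, hlprime, hnl, hldisc⟩ :=
    exists_prime_modEq_one_not_dvd n hn0 (NumberField.discr L) (NumberField.discr_ne_zero L)
  haveI : Fact l.Prime := ⟨hlprime⟩
  haveI : NeZero l := ⟨hlprime.ne_zero⟩
  -- the cyclotomic extension
  let L' := CyclotomicField l L
  haveI : FiniteDimensional K L' := finiteDimensional_of_isCyclotomicExtension K L L' l
  haveI : IsGalois K L' := isGalois_of_isCyclotomicExtension K L L' l
  set ζ : L' := IsCyclotomicExtension.zeta l L L' with hζdef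
  have hζ : IsPrimitiveRoot ζ l := IsCyclotomicExtension.zeta_spec l L L'
  obtain ⟨a, hacop, ha⟩ := exists_primitive_root_nat l
  obtain ⟨ρ, hρL, hρζ⟩ := exists_lift_apply_zeta_eq_pow (K := K) l hldisc hζ g hacop
  have hdet : ∀ τ : L' ≃ₐ[K] L', (∀ x : L, τ (algebraMap L L' x) = algebraMap L L' x) →
      τ ζ = ζ → τ = 1 :=
    eq_one_of_adjoin_eq_top (IsCyclotomicExtension.adjoin_primitive_root_eq_top hζ)
  -- the fixed field
  set M : IntermediateField K L' := IntermediateField.fixedField (Subgroup.zpowers ρ) with hM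
  haveI : NumberField.IsTotallyComplex ↥M :=
    isTotallyComplex_fixedField hζ hgn hnl hρL hρζ ha hdet
  have hfix : M.fixingSubgroup = Subgroup.zpowers ρ :=
    IntermediateField.fixingSubgroup_fixedField _
  have hrange : (AlgEquiv.restrictScalarsHom K : (L' ≃ₐ[M] L') →* (L' ≃ₐ[K] L')).range =
      Subgroup.zpowers ρ := by rw [range_restrictScalarsHom_eq, hfix]
  have hmemρ : ∀ τ : L' ≃ₐ[M] L', τ.restrictScalars K ∈ Subgroup.zpowers ρ := by
    intro τ
    rw [← hrange]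
    exact ⟨τ, rfl⟩
  -- `ρ` as an element of `Gal(L'/M)`
  have hρmem : ρ ∈ M.fixingSubgroup := hfix ▸ Subgroup.mem_zpowers ρ
  set ρM : L' ≃ₐ[M] L' := IntermediateField.fixingSubgroupEquiv M ⟨ρ, hρmem⟩ with hρM
  have hρM_apply : ∀ x : L', ρM x = ρ x := fun x => rfl
  haveI : IsCyclic (L' ≃ₐ[M] L') :=
    isCyclic_of_surjective (IntermediateField.subgroupEquivAlgEquiv (Subgroup.zpowers ρ))
      (IntermediateField.subgroupEquivAlgEquiv (Subgroup.zpowers ρ)).surjective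
  -- `hsurj` from the generator form
  obtain ⟨Q₀, g₀, hQ₀p, hq₀prime, hq₀T, hg₀, hgen₀⟩ :=
    cyclicGenFrob M L' ({l} : Finset ℕ)
  haveI := hQ₀p
  set q₀ := Nat.card (𝓞 M ⧸ Q₀.under (𝓞 M)) with hq₀
  have hq₀l : q₀ ≠ l := fun h => hq₀T (by rw [h]; exact Finset.mem_singleton_self l)
  have hq₀Q : (q₀ : 𝓞 L') ∈ Q₀ := natCast_mem_of_card_quotient_under (K := M) rfl
  have hlQ₀ : (l : 𝓞 L') ∉ Q₀ := natCast_notMem_of_ne hlprime hq₀prime hq₀l hq₀Q
  have hg₀ζ : g₀ ζ = ζ ^ q₀ := apply_zeta_of_isArithFrobAt hg₀ hζ hlQ₀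
  have hτ₀ : Subgroup.zpowers (g₀.restrictScalars K) = Subgroup.zpowers ρ := by
    have h1 : g₀.restrictScalars K = AlgEquiv.restrictScalarsHom K g₀ := rfl
    rw [h1, ← MonoidHom.map_zpowers, hgen₀, ← MonoidHom.range_eq_map, hrange]
  -- the prime `P₀ = Q₀ ∩ 𝓞 M`
  set P₀ : Ideal (𝓞 M) := Q₀.under (𝓞 M) with hP₀
  have hq₀P : (q₀ : 𝓞 M) ∈ P₀ := by
    rw [hP₀, Ideal.under_def, Ideal.mem_comap, map_natCast]
    exact hq₀Q
  have hP₀0 : P₀ ≠ ⊥ := by
    intro h
    rw [h, Ideal.mem_bot] at hq₀P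
    exact hq₀prime.ne_zero (by exact_mod_cast hq₀P)
  have hlP₀ : (l : 𝓞 M) ∉ P₀ := by
    intro h
    apply hlQ₀
    rw [hP₀, Ideal.under_def, Ideal.mem_comap, map_natCast] at h
    exact h
  have hcop₀ : IsCoprime P₀ (Ideal.span {(l : 𝓞 M)}) :=
    isCoprime_span_natCast_of_notMem hP₀0 hlP₀
  have hu₀ : ((normRes M l P₀ : (ZMod l)ˣ) : ZMod l) = (q₀ : ZMod l) := by
    rw [coe_normRes_of_isCoprime hcop₀, Ideal.absNorm_apply, Submodule.cardQuot_apply]
  have hgen : Subgroup.zpowers (normRes M l P₀) = ⊤ :=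
    zpowers_eq_top_of_generator hζ hgn hnl hρL hρζ ha hdet hτ₀ hg₀ζ hu₀
  have hsurj := normRes_surjective_of_generator P₀ hP₀0 hcop₀ hgen
  -- the class density theorem
  have hT' : {v : HeightOneSpectrum (𝓞 M) | Ideal.absNorm v.asIdeal ∈ T}.Finite :=
    finite_setOf_absNorm_mem M T
  set a' : (ZMod l)ˣ := ZMod.unitOfCoprime a hacop with ha'
  obtain ⟨v, hvcop, hvclass, hvdeg, hvT⟩ :=
    exists_prime_class_notMem (normRes M l) normRes_top normRes_mul normRes_span_singleton hsurj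
      (L := L') (fun w hw => normRes_relNorm hζ.toInteger_isPrimitiveRoot w hw)
      span_natCast_ne_bot a' hT'
  -- the Frobenius at a prime above `v`
  haveI : v.asIdeal.IsPrime := v.isPrime
  set Q' : Ideal (𝓞 L') := S14.primeOver M L' v.asIdeal with hQ'
  have hτ : IsArithFrobAt (𝓞 M) (S14.frob M L' v.asIdeal) Q' :=
    S14.frob_spec M L' v.asIdeal v.ne_bot
  set τ : L' ≃ₐ[M] L' := S14.frob M L' v.asIdeal with hτdef
  have hcard : Nat.card (𝓞 M ⧸ Q'.under (𝓞 M)) = Ideal.absNorm v.asIdeal := by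
    rw [← Ideal.over_def Q' v.asIdeal, Ideal.absNorm_apply, Submodule.cardQuot_apply]
  set q : ℕ := Ideal.absNorm v.asIdeal with hq
  have hqprime : q.Prime := hvdeg
  have hlQ' : (l : 𝓞 L') ∉ Q' := by
    intro h
    have h1 : (l : 𝓞 M) ∈ v.asIdeal := by
      rw [Ideal.over_def Q' v.asIdeal, Ideal.under_def, Ideal.mem_comap, map_natCast]
      exact h
    rw [Ideal.isCoprime_iff_sup_eq] at hvcop
    have h2 : v.asIdeal ⊔ Ideal.span {(l : 𝓞 M)} ≤ v.asIdeal :=
      sup_le le_rfl ((Ideal.span_singleton_le_iff_mem _).mpr h1)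
    rw [hvcop, top_le_iff] at h2
    exact v.isPrime.ne_top h2
  have hτζ : (τ.restrictScalars K) ζ = ζ ^ q := by
    have := apply_zeta_of_isArithFrobAt hτ hζ hlQ'
    rw [hcard] at this
    exact this
  have hqa : (q : ZMod l) = (a : ZMod l) := by
    rw [← coe_normRes_of_isCoprime hvcop, hvclass, ha', ZMod.coe_unitOfCoprime]
  have hτρ : τ.restrictScalars K = ρ :=
    eq_rho_of_apply_zeta hζ hgn hnl hρL hρζ ha hdet (hmemρ τ) hτζ hqa
  have hτρM : τ = ρM := by
    ext x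
    exact DFunLike.congr_fun hτρ x
  -- transfer to `L / K`
  have key := transfer (K := K) (M := M) (L := L) (L' := L') ρM g
    (fun x => by rw [hρM_apply]; exact hρL x) Q' hqprime hcard (hτρM ▸ hτ)
  refine ⟨Q'.under (𝓞 L), inferInstance, ?_, ?_, key.2⟩
  · rw [key.1]
    exact hqprime
  · rw [key.1]
    exact fun h => hvT h

/-- **The exact form of Chebotarev for cyclic extensions with totally complex top field.** -/
theorem cyclicExactFrobTC : CyclicExactFrobTC := by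
  intro K L _ _ _ _ _ _ _ g _ T
  exact exists_isArithFrobAt_of_isTotallyComplex K L g T

end Main

end Fermat.Agent.Cheb.Cross
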