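import Fermat.Agent.Cheb.DeuringExact

/-!
# Chebotarev track, milestone 2 (cyclotomic crossing): the intermediate statement

`CyclicExactFrobTC` is `CyclicExactFrob` (of `Cheb/DeuringExact.lean`) restricted to extensions
`L / K` with `L` totally complex and to GENERATORS `g` of `Gal(L/K)`.  The crossing argument proves
`CyclicExactFrobTC`; the reduction `CyclicExactFrobTC → CyclicExactFrob` adjoins `i`.
-/

set_option autoImplicit false

open scoped NumberField

namespace Fermat.Agent.Cheb.Cross

/-- **Exact form, cyclic totally complex case**: for a Galois extension `L / K` of number fields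
with `L` totally complex, every GENERATOR `g` of `Gal(L/K)` is an arithmetic Frobenius at a prime
`Q` of `L` lying over a prime of `K` with residue field of prime cardinality `q ∉ T`. -/
def CyclicExactFrobTC : Prop :=
  ∀ (K L : Type) [Field K] [Field L] [NumberField K] [NumberField L] [Algebra K L] [IsGalois K L]
    [NumberField.IsTotallyComplex L] (g : L ≃ₐ[K] L), Subgroup.zpowers g = ⊤ → ∀ T : Finset ℕ,
    ∃ Q : Ideal (𝓞 L), Q.IsPrime ∧
      (Nat.card (𝓞 K ⧸ Q.under (𝓞 K))).Prime ∧ Nat.card (𝓞 K ⧸ Q.under (𝓞 K)) ∉ T ∧
      IsArithFrobAt (𝓞 K) g Q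

end Fermat.Agent.Cheb.Cross
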